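import Mathlib
import Fermat.Agent.S18.H393.LocalFree

/-!
# S18 / b2.5 — HNC: "unramified outside `S`" ⟹ the fibres `B/πB` are reduced (helper213)

Produces the hypothesis `hNC` of `B12.B2Statement` / `B12.B2RegularStatement` (helper33's frozen
specs) from the place-theoretic hypothesis `Alg.GoodModel.unramified` (helper18's interface):

* `R` a DVR with uniformiser `w`, `B` an integrally closed domain, integral over `R[X]`, embedded
  in a field `Ω` of characteristic `0`;
* `Lc ⊆ Ω` an algebraically closed subfield, containing `R` and algebraic over it;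
* `hunr`: for every valuation subring `O ⊇ Lc` of `Ω` and every `c ∈ Lc` outside the branch set,
  if `x - c` is a non-unit of `O` then it generates the maximal ideal of `O`.

Then (`isRadical_span_of_unramified`) for every prime `π` of `R[X]` not associated to `C w` or to
some `X - C c`, `c ∈ S`, the ideal `π B` is radical.

Proof.  Let `b ^ k ∈ π B`, `f := b / π ∈ Ω`.
1. `f` lies in every valuation subring `V ⊇ R[x]` with `w⁻¹ ∈ V`
   (`div_mem_valuationSubring_of_unramified`): such a `V` contains `Lc`; if `π(x)` is a non-unit of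
   `V` then `x - c` is a non-unit for a root `c ∈ Lc` of `π`, `c ∉ S` (else `π ~ X - c`), the root
   is simple (char 0), so `v(π(x)) = v(x - c)`, and `hunr` gives `v(b) ≤ v(x - c)`.
2. Hence `f` is integral over `R[X][1/w]` (Mathlib: a subring integrally closed in a field is the
   intersection of the valuation subrings containing it), so `w ^ j * f` is integral over `R[X]`.
3. `w ^ j * f` and `π * f = b` integral, `w` prime, `w ∤ π` ⟹ `f` integral
   (regular sequence lemma `H393.isIntegral_of_isIntegral_mul'`), so `f ∈ B`.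
-/

set_option autoImplicit false
set_option linter.style.haveILetI false
open Polynomial

namespace Fermat.Agent.S18.H213

section Val
variable {Ω : Type*} [Field Ω]

theorem val_lt_one_of_inv_notMem (O : ValuationSubring Ω) {a : Ω} (h1 : a ∈ O) (h2 : a⁻¹ ∉ O) :
    O.valuation a < 1 := by
  have h3 : O.valuation a ≤ 1 := (O.valuation_le_one_iff a).mpr h1
  refine lt_of_le_of_ne h3 fun h => h2 ?_
  rw [← O.valuation_le_one_iff, map_inv₀, h, inv_one]

theorem val_eq_one_of_inv_mem (O : ValuationSubring Ω) {a : Ω} (h1 : a ∈ O) (h2 : a⁻¹ ∈ O)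
    (h0 : a ≠ 0) : O.valuation a = 1 := by
  have h3 : O.valuation a ≤ 1 := (O.valuation_le_one_iff a).mpr h1
  have h4 : O.valuation a⁻¹ ≤ 1 := (O.valuation_le_one_iff _).mpr h2
  rw [map_inv₀] at h4
  have h5 : O.valuation a ≠ 0 := (Valuation.ne_zero_iff _).mpr h0
  refine le_antisymm h3 ?_
  have := (inv_le_one₀ (zero_lt_iff.mpr h5)).mp h4
  exact this

theorem inv_notMem_of_val_lt_one (O : ValuationSubring Ω) {a : Ω} (h0 : a ≠ 0)
    (h : O.valuation a < 1) : a⁻¹ ∉ O := by
  intro h2
  have h4 : O.valuation a⁻¹ ≤ 1 := (O.valuation_le_one_iff _).mpr h2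
  rw [map_inv₀] at h4
  have h5 : O.valuation a ≠ 0 := (Valuation.ne_zero_iff _).mpr h0
  have := (inv_le_one₀ (zero_lt_iff.mpr h5)).mp h4
  exact absurd h (not_lt.mpr this)

/-- A valuation subring containing the image of `A` contains every element integral over `A`. -/
theorem mem_valuationSubring_of_isIntegral {A : Type*} [CommRing A] [Algebra A Ω]
    (O : ValuationSubring Ω) (hA : ∀ a : A, algebraMap A Ω a ∈ O) {y : Ω} (hy : IsIntegral A y) :
    y ∈ O := by
  letI : Algebra A O := ((algebraMap A Ω).codRestrict O.toSubring hA).toAlgebra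
  haveI : IsScalarTower A O Ω := IsScalarTower.of_algebraMap_eq fun _ => rfl
  have h1 : IsIntegral O y := hy.tower_top
  obtain ⟨z, hz⟩ := IsIntegrallyClosedIn.algebraMap_eq_of_integral h1
  rw [← hz]
  exact z.2

/-- Evaluating a polynomial with coefficients in `O` at a point of `O`. -/
theorem eval_mem_valuationSubring (O : ValuationSubring Ω) (P : Polynomial Ω) (hP : ∀ i, P.coeff i ∈ O)
    {x : Ω} (hx : x ∈ O) : P.eval x ∈ O := by
  rw [Polynomial.eval_eq_sum_range]
  exact Subring.sum_mem O.toSubring fun i _ => O.mul_mem _ _ (hP i) (pow_mem hx i)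

/-- Simple root: if `P ∈ Lc[X]` is separable with root `c` and `O ⊇ Lc` is a valuation subring
in which `x - c` is a non-unit, then `P(x) = (x - c) * u` with `u` a unit of `O`; in valuation
terms `v (P(x)) = v (x - c)`. -/
theorem val_eval_eq_of_separable (O : ValuationSubring Ω) (Lc : Subfield Ω)
    (hL : ∀ a ∈ Lc, a ∈ O) (P : Polynomial Lc) (hP : P.Separable) (c : Lc) (hc : P.eval c = 0)
    {x : Ω} (hx : x ∈ O) (hxc : O.valuation (x - c) < 1) :
    O.valuation ((P.map Lc.subtype).eval x) = O.valuation (x - c) := by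
  -- P = (X - C c) * Q
  set Q := P /ₘ (X - C c) with hQ
  have hPQ : (X - C c) * Q = P := mul_divByMonic_eq_iff_isRoot.mpr hc
  have hQc : Q.eval c ≠ 0 := by
    have h1 := hP.eval₂_derivative_ne_zero (RingHom.id Lc) (x := c) (by simpa using hc)
    rw [← hPQ, derivative_mul] at h1
    simpa using h1
  -- Q = C (Q c) + (X - C c) * Q₁
  set Q₁ := Q /ₘ (X - C c) with hQ₁
  have hQQ : C (Q.eval c) + (X - C c) * Q₁ = Q := by
    rw [← modByMonic_X_sub_C_eq_C_eval]
    exact modByMonic_add_div Q (X - C c)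
  have e1 : (P.map Lc.subtype).eval x = (x - c) * (Q.map Lc.subtype).eval x := by
    rw [← hPQ]; simp
  have e2 : (Q.map Lc.subtype).eval x =
      ((Q.eval c : Lc) : Ω) + (x - c) * (Q₁.map Lc.subtype).eval x := by
    conv_lhs => rw [← hQQ]
    simp
  have hQ1mem : (Q₁.map Lc.subtype).eval x ∈ O := by
    refine eval_mem_valuationSubring O _ (fun i => ?_) hx
    rw [coeff_map]
    exact hL _ (Q₁.coeff i).2
  have hv1 : O.valuation ((Q.eval c : Lc) : Ω) = 1 := by
    refine val_eq_one_of_inv_mem O (hL _ (Q.eval c).2) ?_ ?_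
    · have : (((Q.eval c)⁻¹ : Lc) : Ω) ∈ O := hL _ ((Q.eval c)⁻¹).2
      simpa using this
    · simpa using hQc
  have hv2 : O.valuation ((x - c) * (Q₁.map Lc.subtype).eval x) < 1 := by
    rw [map_mul]
    calc O.valuation (x - c) * O.valuation ((Q₁.map Lc.subtype).eval x)
        ≤ O.valuation (x - c) * 1 := by
          gcongr
          exact (O.valuation_le_one_iff _).mpr hQ1mem
      _ < 1 := by rwa [mul_one]
  have hv3 : O.valuation ((Q.map Lc.subtype).eval x) = 1 := by
    rw [e2, Valuation.map_add_eq_of_lt_left _ (by rw [hv1]; exact hv2), hv1]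
  rw [e1, map_mul, hv3, mul_one]

/-- If `P ∈ Lc[X]` (`Lc` algebraically closed, `Lc ⊆ O`) and `P(x)` is a non-unit of `O`, then
`x - c` is a non-unit of `O` for some root `c` of `P`. -/
theorem exists_root_val_lt_one (O : ValuationSubring Ω) (Lc : Subfield Ω) [IsAlgClosed Lc]
    (hL : ∀ a ∈ Lc, a ∈ O) (P : Polynomial Lc) (hP0 : P ≠ 0) {x : Ω} (hx : x ∈ O)
    (hPx : O.valuation ((P.map Lc.subtype).eval x) < 1) :
    ∃ c : Lc, P.eval c = 0 ∧ O.valuation (x - c) < 1 := by
  have hsplit : P.Splits := IsAlgClosed.splits P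
  have h1 : P = C P.leadingCoeff * (P.roots.map (fun a => X - C a)).prod := hsplit.eq_prod_roots
  have h2 : (P.map Lc.subtype).eval x =
      (P.leadingCoeff : Ω) * (P.roots.map (fun a : Lc => x - (a : Ω))).prod := by
    conv_lhs => rw [h1]
    rw [Polynomial.map_mul, eval_mul, Polynomial.map_C, eval_C, Polynomial.map_multiset_prod,
      eval_multiset_prod, Multiset.map_map, Multiset.map_map]
    congr 2
    refine Multiset.map_congr rfl fun a _ => ?_
    simp
  by_contra hcon
  push Not at hcon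
  have h3 : O.valuation (P.roots.map (fun a : Lc => x - (a : Ω))).prod = 1 := by
    rw [map_multiset_prod, Multiset.map_map]
    apply Multiset.prod_eq_one
    intro y hy
    obtain ⟨a, ha, rfl⟩ := Multiset.mem_map.mp hy
    have hmem : x - (a : Ω) ∈ O := sub_mem hx (hL _ a.2)
    exact le_antisymm ((O.valuation_le_one_iff _).mpr hmem)
      (hcon a ((mem_roots hP0).mp ha))
  have hlc : P.leadingCoeff ≠ 0 := leadingCoeff_ne_zero.mpr hP0
  have h4 : O.valuation (P.leadingCoeff : Ω) = 1 := by
    refine val_eq_one_of_inv_mem O (hL _ P.leadingCoeff.2) ?_ ?_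
    · have : ((P.leadingCoeff⁻¹ : Lc) : Ω) ∈ O := hL _ (P.leadingCoeff⁻¹).2
      simpa using this
    · simpa using hlc
  rw [h2, map_mul, h3, h4, mul_one] at hPx
  exact lt_irrefl _ hPx

end Val

section Poly

variable {R : Type*} [CommRing R] [IsDomain R] [IsDiscreteValuationRing R]

/-- A prime of `R[X]` (`R` a DVR with uniformiser `w`) not associated to `w` is non-constant. -/
theorem natDegree_ne_zero_of_prime {w : R} (hw : Irreducible w) {π : R[X]} (hπ : Prime π)
    (hπw : ¬ Associated π (C w)) : π.natDegree ≠ 0 := by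
  intro h
  obtain ⟨r, hr⟩ := natDegree_eq_zero.mp h
  apply hπw
  rw [← hr] at hπ ⊢
  have hr' : Prime r := prime_C_iff.mp hπ
  have := IsDiscreteValuationRing.associated_of_irreducible R hr'.irreducible hw
  obtain ⟨u, hu⟩ := this
  exact ⟨Units.map (C : R →+* R[X]).toMonoidHom u, by simp [← hu]⟩

/-- A prime of `R[X]` not associated to `w` has separable image over any field of
characteristic zero into which `R` embeds. -/
theorem separable_map_of_prime {w : R} (hw : Irreducible w) {π : R[X]} (hπ : Prime π)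
    (hπw : ¬ Associated π (C w)) {L : Type*} [Field L] [CharZero L] (ι : R →+* L)
    (hι : Function.Injective ι) : (π.map ι).Separable := by
  have hdeg := natDegree_ne_zero_of_prime hw hπ hπw
  have hprim : π.IsPrimitive := hπ.irreducible.isPrimitive hdeg
  letI : CharZero R := ι.charZero
  let E := FractionRing R
  have hirr : Irreducible (π.map (algebraMap R E)) :=
    (hprim.irreducible_iff_irreducible_map_fraction_map).mp hπ.irreducible
  have hsep : (π.map (algebraMap R E)).Separable := hirr.separable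
  let j : E →+* L := IsFractionRing.lift hι
  have hj : j.comp (algebraMap R E) = ι := by
    ext r; exact IsFractionRing.lift_algebraMap hι r
  have := hsep.map (f := j)
  rwa [Polynomial.map_map, hj] at this

end Poly

section Main

variable {R : Type*} [CommRing R] [IsDomain R] [IsDiscreteValuationRing R]
  {B : Type*} [CommRing B] [Algebra R[X] B] [Algebra.IsIntegral R[X] B]
  {Ω : Type*} [Field Ω] [CharZero Ω] [Algebra R Ω] [Algebra R[X] Ω] [IsScalarTower R R[X] Ω]
  [Algebra B Ω] [IsScalarTower R[X] B Ω]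

omit [IsDomain R] [IsDiscreteValuationRing R] [CharZero Ω] in
theorem algebraMap_eq_eval_map (p : R[X]) :
    algebraMap R[X] Ω p = (p.map (algebraMap R Ω)).eval (algebraMap R[X] Ω X) := by
  rw [eval_map]
  conv_lhs => rw [← eval₂_C_X (p := p)]
  rw [hom_eval₂]
  congr 1
  ext r
  simp [IsScalarTower.algebraMap_apply R R[X] Ω]

/-- **Valuation form of HNC.**  `b ^ k ∈ π B` ⟹ `b / π` lies in every valuation subring of `Ω`
containing `R[x]` and `w⁻¹`. -/
theorem div_mem_valuationSubring_of_unramified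
    (hinjP : Function.Injective (algebraMap R[X] Ω))
    (Lc : Subfield Ω) [IsAlgClosed Lc]
    (hRL : ∀ r : R, algebraMap R Ω r ∈ Lc)
    (hLalg : ∀ a ∈ Lc, IsAlgebraic R a)
    (S : Set Ω)
    (hunr : ∀ O : ValuationSubring Ω, (∀ a ∈ Lc, a ∈ O) → ∀ c ∈ Lc, c ∉ S →
      algebraMap R[X] Ω X - c ∈ O → (algebraMap R[X] Ω X - c)⁻¹ ∉ O →
      ∀ t ∈ O, t⁻¹ ∉ O → t * (algebraMap R[X] Ω X - c)⁻¹ ∈ O)
    {w : R} (hw : Irreducible w)
    {π : R[X]} (hπ : Prime π) (hπw : ¬ Associated π (C w))
    (hπS : ∀ c : R, algebraMap R Ω c ∈ S → ¬ Associated π (X - C c))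
    (hSR : ∀ c : Lc, (c : Ω) ∈ S → ∃ s : R, (c : Ω) = algebraMap R Ω s)
    {b b₁ : B} {k : ℕ} (hb : b ^ k = algebraMap R[X] B π * b₁)
    (V : ValuationSubring Ω) (hV1 : ∀ p : R[X], algebraMap R[X] Ω p ∈ V)
    (hV2 : (algebraMap R Ω w)⁻¹ ∈ V) :
    algebraMap B Ω b / algebraMap R[X] Ω π ∈ V := by
  set x := algebraMap R[X] Ω X with hx
  set ι := algebraMap R Ω with hι
  have hιC : ∀ r : R, algebraMap R[X] Ω (C r) = ι r := fun r => by
    rw [hι, IsScalarTower.algebraMap_apply R R[X] Ω]; rfl
  have hιinj : Function.Injective ι := by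
    intro r s hrs
    rw [← hιC, ← hιC] at hrs
    exact C_injective (hinjP hrs)
  have hxV : x ∈ V := hV1 X
  have hRV : ∀ r : R, ι r ∈ V := fun r => hιC r ▸ hV1 (C r)
  -- nonzero constants are units of `V`
  have hRunit : ∀ r : R, r ≠ 0 → (ι r)⁻¹ ∈ V := by
    intro r hr
    obtain ⟨n, u, rfl⟩ := IsDiscreteValuationRing.eq_unit_mul_pow_irreducible hr hw
    rw [map_mul, map_pow, mul_inv, ← inv_pow]
    refine V.mul_mem _ _ ?_ (pow_mem hV2 n)
    have : (ι (u : R))⁻¹ = ι ((u⁻¹ : Rˣ) : R) := (map_units_inv ι u).symm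
    rw [this]
    exact hRV _
  -- `Lc ⊆ V`
  have hLV : ∀ a ∈ Lc, a ∈ V := by
    intro a ha
    obtain ⟨y, hy0, hy⟩ := (hLalg a ha).exists_integral_multiple
    have h1 : y • a ∈ V := mem_valuationSubring_of_isIntegral V hRV hy
    rw [Algebra.smul_def] at h1
    have h2 := V.mul_mem _ _ (hRunit y hy0) h1
    rwa [← mul_assoc, inv_mul_cancel₀ (by
      intro h; exact hy0 (hιinj (by rw [h, map_zero]))), one_mul] at h2
  -- elements of `B` lie in `V`
  have hBV : ∀ z : B, algebraMap B Ω z ∈ V := fun z =>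
    mem_valuationSubring_of_isIntegral V hV1
      ((Algebra.IsIntegral.isIntegral (R := R[X]) z).map (IsScalarTower.toAlgHom R[X] B Ω))
  -- the polynomial over `Lc`
  let ιL : R →+* Lc := ι.codRestrict Lc hRL
  have hιL : Lc.subtype.comp ιL = ι := by ext r; rfl
  have hιLinj : Function.Injective ιL := fun r s hrs => hιinj (by
    have := congrArg Lc.subtype hrs
    simpa [ιL] using this)
  set P : Polynomial Lc := π.map ιL with hP
  have hPsep : P.Separable := separable_map_of_prime hw hπ hπw ιL hιLinj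
  have hP0 : P ≠ 0 := hPsep.ne_zero
  have hπΩ : algebraMap R[X] Ω π = (P.map Lc.subtype).eval x := by
    rw [hP, Polynomial.map_map, hιL]
    exact algebraMap_eq_eval_map π
  have hπ0 : algebraMap R[X] Ω π ≠ 0 := fun h => hπ.ne_zero (hinjP (by rw [h, map_zero]))
  have hπV : algebraMap R[X] Ω π ∈ V := hV1 π
  rw [div_eq_mul_inv]
  by_cases hunit : (algebraMap R[X] Ω π)⁻¹ ∈ V
  · exact V.mul_mem _ _ (hBV b) hunit
  -- `π(x)` is a non-unit
  have hvπ : V.valuation (algebraMap R[X] Ω π) < 1 := val_lt_one_of_inv_notMem V hπV hunit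
  obtain ⟨c, hc, hvc⟩ := exists_root_val_lt_one V Lc hLV P hP0 hxV (hπΩ ▸ hvπ)
  have hvπc : V.valuation (algebraMap R[X] Ω π) = V.valuation (x - c) := by
    rw [hπΩ]; exact val_eval_eq_of_separable V Lc hLV P hPsep c hc hxV hvc
  have hxc0 : x - (c : Ω) ≠ 0 := by
    intro h
    rw [h, map_zero] at hvπc
    exact hπ0 ((Valuation.zero_iff _).mp hvπc)
  -- `c ∉ S`
  have hcS : (c : Ω) ∉ S := by
    intro hcmem
    obtain ⟨s, hcs⟩ : ∃ s : R, (c : Ω) = ι s := by
      -- `c` is a root of `π`, a polynomial over `R`; if `c ∈ S` we must show it comes from `R`: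
      -- this is part of the hypothesis `hS` below
      exact hSR c hcmem
    have hs : ι s ∈ S := hcs ▸ hcmem
    have hroot : π.IsRoot s := by
      have h1 : ιL (π.eval s) = 0 := by
        have hcs' : c = ιL s := Subtype.ext hcs
        rw [← eval₂_hom, ← hcs', ← eval_map]
        exact hc
      exact hιLinj (by rw [h1, map_zero])
    have hdvd : X - C s ∣ π := dvd_iff_isRoot.mpr hroot
    exact hπS s hs ((prime_X_sub_C s).irreducible.associated_of_dvd hπ.irreducible hdvd).symm
  -- the element `b`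
  by_cases hb0 : algebraMap B Ω b = 0
  · rw [hb0, zero_mul]; exact V.zero_mem
  have hbΩ : algebraMap B Ω b ^ k = algebraMap R[X] Ω π * algebraMap B Ω b₁ := by
    rw [← map_pow, hb, map_mul, ← IsScalarTower.algebraMap_apply]
  have hvb : V.valuation (algebraMap B Ω b) < 1 := by
    by_contra hge
    have h1 : V.valuation (algebraMap B Ω b) = 1 :=
      le_antisymm ((V.valuation_le_one_iff _).mpr (hBV b)) (not_lt.mp hge)
    have h2 : V.valuation (algebraMap B Ω b ^ k) = 1 := by rw [map_pow, h1, one_pow]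
    rw [hbΩ, map_mul] at h2
    have h3 : V.valuation (algebraMap R[X] Ω π) * V.valuation (algebraMap B Ω b₁) < 1 := by
      calc V.valuation (algebraMap R[X] Ω π) * V.valuation (algebraMap B Ω b₁)
          ≤ V.valuation (algebraMap R[X] Ω π) * 1 := by
            gcongr
            exact (V.valuation_le_one_iff _).mpr (hBV b₁)
        _ < 1 := by rwa [mul_one]
    exact absurd h2 h3.ne
  have hmain := hunr V hLV c c.2 hcS (sub_mem hxV (hLV c c.2))
    (inv_notMem_of_val_lt_one V hxc0 hvc) _ (hBV b) (inv_notMem_of_val_lt_one V hb0 hvb)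
  rw [← V.valuation_le_one_iff] at hmain ⊢
  rwa [map_mul, map_inv₀, hvπc, ← map_inv₀, ← map_mul]

/-- `b ^ k ∈ π B` ⟹ `b / π` is integral over `R[X]`. -/
theorem isIntegral_div_of_unramified
    (hinjP : Function.Injective (algebraMap R[X] Ω))
    (Lc : Subfield Ω) [IsAlgClosed Lc]
    (hRL : ∀ r : R, algebraMap R Ω r ∈ Lc)
    (hLalg : ∀ a ∈ Lc, IsAlgebraic R a)
    (S : Set Ω)
    (hunr : ∀ O : ValuationSubring Ω, (∀ a ∈ Lc, a ∈ O) → ∀ c ∈ Lc, c ∉ S →
      algebraMap R[X] Ω X - c ∈ O → (algebraMap R[X] Ω X - c)⁻¹ ∉ O →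
      ∀ t ∈ O, t⁻¹ ∉ O → t * (algebraMap R[X] Ω X - c)⁻¹ ∈ O)
    {w : R} (hw : Irreducible w)
    {π : R[X]} (hπ : Prime π) (hπw : ¬ Associated π (C w))
    (hπS : ∀ c : R, algebraMap R Ω c ∈ S → ¬ Associated π (X - C c))
    (hSR : ∀ c : Lc, (c : Ω) ∈ S → ∃ s : R, (c : Ω) = algebraMap R Ω s)
    {b b₁ : B} {k : ℕ} (hb : b ^ k = algebraMap R[X] B π * b₁) :
    IsIntegral R[X] (algebraMap B Ω b / algebraMap R[X] Ω π) := by
  set f := algebraMap B Ω b / algebraMap R[X] Ω π with hf
  have hιC : ∀ r : R, algebraMap R[X] Ω (C r) = algebraMap R Ω r := fun r => by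
    rw [IsScalarTower.algebraMap_apply R R[X] Ω]; rfl
  have hw0 : algebraMap R[X] Ω (C w) ≠ 0 := fun h =>
    hw.ne_zero (C_injective (hinjP (by rw [h]; simp)))
  have hπ0 : algebraMap R[X] Ω π ≠ 0 := fun h => hπ.ne_zero (hinjP (by rw [h, map_zero]))
  -- Step 1: integral over `R[X][1/w]`
  let Rm := Localization.Away (C w : R[X])
  letI : Algebra Rm Ω :=
    (IsLocalization.Away.lift (S := Rm) (C w : R[X]) (g := algebraMap R[X] Ω)
      (isUnit_iff_ne_zero.mpr hw0)).toAlgebra
  haveI : IsScalarTower R[X] Rm Ω := IsScalarTower.of_algebraMap_eq fun p =>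
    (IsLocalization.Away.lift_eq (S := Rm) (C w : R[X]) (g := algebraMap R[X] Ω)
      (isUnit_iff_ne_zero.mpr hw0) p).symm
  have h1 : IsIntegral Rm f := by
    by_contra hnot
    have hnot' : f ∉ (integralClosure Rm Ω).toSubring := hnot
    obtain ⟨V, hTV, hfV⟩ := Subring.exists_le_valuationSubring_of_isIntegrallyClosedIn hnot'
    have hRmV : ∀ y : Rm, algebraMap Rm Ω y ∈ V := fun y =>
      hTV (show algebraMap Rm Ω y ∈ integralClosure Rm Ω from isIntegral_algebraMap)
    have hV1 : ∀ p : R[X], algebraMap R[X] Ω p ∈ V := fun p => by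
      rw [IsScalarTower.algebraMap_apply R[X] Rm Ω]; exact hRmV _
    have hV2 : (algebraMap R Ω w)⁻¹ ∈ V := by
      have h2 := hRmV (IsLocalization.Away.invSelf (C w : R[X]))
      have h3 : algebraMap Rm Ω (IsLocalization.Away.invSelf (C w : R[X])) =
          (algebraMap R Ω w)⁻¹ := by
        apply eq_inv_of_mul_eq_one_left
        rw [← hιC, IsScalarTower.algebraMap_apply R[X] Rm Ω, ← map_mul, mul_comm,
          IsLocalization.Away.mul_invSelf, map_one]
      rwa [h3] at h2
    exact hfV (div_mem_valuationSubring_of_unramified hinjP Lc hRL hLalg S hunr hw hπ hπw hπS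
      hSR hb V hV1 hV2)
  -- Step 2: clear the denominator
  obtain ⟨⟨m, j, rfl⟩, hm⟩ :=
    IsIntegral.exists_multiple_integral_of_isLocalization (Submonoid.powers (C w : R[X])) f h1
  replace hm : IsIntegral R[X] (algebraMap R[X] Ω (C w) ^ j * f) := by
    simpa [Submonoid.smul_def, Algebra.smul_def] using hm
  -- Step 3: the regular sequence lemma
  have hπf : IsIntegral R[X] (algebraMap R[X] Ω π * f) := by
    rw [hf, mul_div_cancel₀ _ hπ0]
    exact (Algebra.IsIntegral.isIntegral (R := R[X]) b).map (IsScalarTower.toAlgHom R[X] B Ω)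
  have hCw : Prime (C w : R[X]) := prime_C_iff.mpr hw.prime
  have hndvd : ¬ (C w : R[X]) ∣ π := fun h =>
    hπw (hCw.irreducible.associated_of_dvd hπ.irreducible h).symm
  let K := FractionRing R[X]
  letI : Algebra K Ω := (IsFractionRing.lift (K := K) hinjP).toAlgebra
  haveI : IsScalarTower R[X] K Ω := IsScalarTower.of_algebraMap_eq fun p =>
    (IsFractionRing.lift_algebraMap hinjP p).symm
  have key : ∀ (j : ℕ) (g : Ω), IsIntegral R[X] (algebraMap R[X] Ω (C w) ^ j * g) →
      IsIntegral R[X] (algebraMap R[X] Ω π * g) → IsIntegral R[X] g := by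
    intro j
    induction j with
    | zero => intro g hg _; simpa using hg
    | succ j ih =>
      intro g hg hπg
      apply ih g _ hπg
      apply Fermat.Agent.S18.H393.isIntegral_of_isIntegral_mul' K hCw hndvd
      · rw [← mul_assoc, ← pow_succ']; exact hg
      · have : algebraMap R[X] Ω π * (algebraMap R[X] Ω (C w) ^ j * g) =
            algebraMap R[X] Ω (C w ^ j) * (algebraMap R[X] Ω π * g) := by
          rw [map_pow]; ring
        rw [this]
        exact isIntegral_algebraMap.mul hπg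
  exact key j f hm hπf

/-- **HNC, general form.**  `R` a DVR with uniformiser `w`; `B` an integrally closed domain,
integral over `R[X]`, embedded in a field `Ω` of characteristic zero; `Lc ⊆ Ω` an algebraically
closed subfield containing `R` and algebraic over it; `S ⊆ Ω` a set of "branch values" all of
which come from `R`.  Assume that `x - c` is a uniformiser of every valuation subring `O ⊇ Lc`
of `Ω` in which it is a non-unit, for `c ∈ Lc ∖ S` (`GoodModel.unramified`).  Then for every
prime `π` of `R[X]` not associated to `w` or to some `X - c`, `c ∈ S`, the ideal `π B` is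
radical. -/
theorem isRadical_span_of_unramified' [IsDomain B] [IsIntegrallyClosed B]
    (hinjB : Function.Injective (algebraMap B Ω))
    (hinjP : Function.Injective (algebraMap R[X] Ω))
    (Lc : Subfield Ω) [IsAlgClosed Lc]
    (hRL : ∀ r : R, algebraMap R Ω r ∈ Lc)
    (hLalg : ∀ a ∈ Lc, IsAlgebraic R a)
    (S : Set Ω)
    (hunr : ∀ O : ValuationSubring Ω, (∀ a ∈ Lc, a ∈ O) → ∀ c ∈ Lc, c ∉ S →
      algebraMap R[X] Ω X - c ∈ O → (algebraMap R[X] Ω X - c)⁻¹ ∉ O →
      ∀ t ∈ O, t⁻¹ ∉ O → t * (algebraMap R[X] Ω X - c)⁻¹ ∈ O)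
    (hSR : ∀ c : Lc, (c : Ω) ∈ S → ∃ s : R, (c : Ω) = algebraMap R Ω s)
    {w : R} (hw : Irreducible w)
    {π : R[X]} (hπ : Prime π) (hπw : ¬ Associated π (C w))
    (hπS : ∀ c : R, algebraMap R Ω c ∈ S → ¬ Associated π (X - C c)) :
    (Ideal.span {algebraMap R[X] B π}).IsRadical := by
  intro b hb
  obtain ⟨k, hk⟩ := hb
  obtain ⟨b₁, hb₁⟩ := Ideal.mem_span_singleton'.mp hk
  have hint := isIntegral_div_of_unramified hinjP Lc hRL hLalg S hunr hw hπ hπw hπS hSR
    (b := b) (b₁ := b₁) (k := k) (by rw [← hb₁, mul_comm])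
  have hπ0 : algebraMap R[X] Ω π ≠ 0 := fun h => hπ.ne_zero (hinjP (by rw [h, map_zero]))
  have hπB0 : algebraMap R[X] B π ≠ 0 := by
    intro h
    apply hπ0
    rw [IsScalarTower.algebraMap_apply R[X] B Ω, h, map_zero]
  let KB := FractionRing B
  let j : KB →ₐ[B] Ω := IsFractionRing.liftAlgHom (g := Algebra.ofId B Ω) hinjB
  have hj : Function.Injective j := j.toRingHom.injective
  have hjB : ∀ z : B, j (algebraMap B KB z) = algebraMap B Ω z := fun z => j.commutes z
  set f₀ : KB := algebraMap B KB b / algebraMap B KB (algebraMap R[X] B π) with hf₀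
  have hjf : j f₀ = algebraMap B Ω b / algebraMap R[X] Ω π := by
    rw [hf₀, map_div₀, hjB, hjB, ← IsScalarTower.algebraMap_apply R[X] B Ω]
  have h1 : IsIntegral B (j f₀) := by
    rw [hjf]; exact hint.tower_top
  have h2 : IsIntegral B f₀ := (isIntegral_algHom_iff j hj).mp h1
  obtain ⟨y, hy⟩ := IsIntegrallyClosed.isIntegral_iff.mp h2
  rw [Ideal.mem_span_singleton']
  refine ⟨y, ?_⟩
  apply IsFractionRing.injective B KB
  rw [map_mul, hy, hf₀, div_mul_cancel₀]
  exact fun h => hπB0 (IsFractionRing.injective B KB (by rw [h, map_zero]))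

/-- **HNC** in the exact shape of the `hNC` hypothesis of `B12.B2Statement` /
`B12.B2RegularStatement` (`S : Finset R`). -/
theorem isRadical_span_of_unramified [IsDomain B] [IsIntegrallyClosed B]
    (hinjB : Function.Injective (algebraMap B Ω))
    (hinjP : Function.Injective (algebraMap R[X] Ω))
    (Lc : Subfield Ω) [IsAlgClosed Lc]
    (hRL : ∀ r : R, algebraMap R Ω r ∈ Lc)
    (hLalg : ∀ a ∈ Lc, IsAlgebraic R a)
    (S : Finset R)
    (hunr : ∀ O : ValuationSubring Ω, (∀ a ∈ Lc, a ∈ O) → ∀ c ∈ Lc,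
      (∀ s ∈ S, c ≠ algebraMap R Ω s) →
      algebraMap R[X] Ω X - c ∈ O → (algebraMap R[X] Ω X - c)⁻¹ ∉ O →
      ∀ t ∈ O, t⁻¹ ∉ O → t * (algebraMap R[X] Ω X - c)⁻¹ ∈ O)
    {w : R} (hw : Irreducible w) :
    ∀ π : R[X], Prime π → ¬ Associated π (C w) → (∀ c ∈ S, ¬ Associated π (X - C c)) →
      (Ideal.span {algebraMap R[X] B π}).IsRadical := by
  intro π hπ hπw hπS
  have hιinj : Function.Injective (algebraMap R Ω) := by
    intro r s hrs
    have : algebraMap R[X] Ω (C r) = algebraMap R[X] Ω (C s) := by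
      rw [← algebraMap_eq (R := R), ← IsScalarTower.algebraMap_apply R R[X] Ω,
        ← IsScalarTower.algebraMap_apply R R[X] Ω, hrs]
    exact C_injective (hinjP this)
  refine isRadical_span_of_unramified' hinjB hinjP Lc hRL hLalg
    ((fun s : R => algebraMap R Ω s) '' (S : Set R)) ?_ ?_ hw hπ hπw ?_
  · intro O hO c hc hcS
    refine hunr O hO c hc fun s hs hcs => hcS ⟨s, hs, hcs.symm⟩
  · rintro c ⟨s, -, hs⟩
    exact ⟨s, hs.symm⟩
  · rintro c ⟨s, hs, hsc⟩
    have : s = c := hιinj hsc
    exact this ▸ hπS s hs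

end Main

end Fermat.Agent.S18.H213
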